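/-
S48lib / Dens / Basic  (helper4).

**One-sided Dirichlet densities: basic API** for `primeSum`, `UpperDensityLE`, `LowerDensityGE`
(`S48lib/Iface/Density.lean`).

* `summable_indicator`, `primeSum_nonneg`, `primeSum_mono`, `primeSum_union_le`,
  `primeSum_union_of_disjoint`, `primeSum_le_card`;
* `log_inv_sub_one_pos`, `exists_delta_log_ge` (`log (1/(s-1)) → ∞`);
* `UpperDensityLE.mono_set`, `.mono`, `.union`, `upperDensityLE_of_finite`,
  `LowerDensityGE.mono_set`, `.mono`;
* **`not_subset_of_density`** : `LowerDensityGE B c → UpperDensityLE B' η → η < c → ¬ B ⊆ B'`.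
-/
import Mathlib
import Fermat.Agent.S48lib.Iface.Density

set_option autoImplicit false

noncomputable section

namespace Fermat.Agent.S48lib.Dens

open Set

/-- the summand of `primeSum` -/
abbrev psTerm (B : Set ℕ) (s : ℝ) (p : Nat.Primes) : ℝ :=
  Set.indicator B (fun n : ℕ => (n : ℝ) ^ (-s)) (p : ℕ)

theorem psTerm_nonneg (B : Set ℕ) (s : ℝ) (p : Nat.Primes) : 0 ≤ psTerm B s p :=
  Set.indicator_nonneg (fun n _ => by positivity) _

theorem psTerm_le (B : Set ℕ) (s : ℝ) (p : Nat.Primes) : psTerm B s p ≤ ((p : ℕ) : ℝ) ^ (-s) :=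
  Set.indicator_le_self' (fun n _ => by positivity) _

theorem summable_indicator (B : Set ℕ) {s : ℝ} (hs : 1 < s) : Summable (psTerm B s) := by
  have h := (Nat.Primes.summable_rpow (r := -s)).2 (by linarith)
  exact Summable.of_nonneg_of_le (psTerm_nonneg B s) (psTerm_le B s) h

theorem primeSum_nonneg (B : Set ℕ) (s : ℝ) : 0 ≤ primeSum B s :=
  tsum_nonneg (psTerm_nonneg B s)

theorem primeSum_mono {B B' : Set ℕ} (h : B ⊆ B') {s : ℝ} (hs : 1 < s) :
    primeSum B s ≤ primeSum B' s :=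
  (summable_indicator B hs).tsum_le_tsum
    (fun p => Set.indicator_le_indicator_of_subset h (fun n => by positivity) _)
    (summable_indicator B' hs)

theorem psTerm_union_le (B B' : Set ℕ) (s : ℝ) (p : Nat.Primes) :
    psTerm (B ∪ B') s p ≤ psTerm B s p + psTerm B' s p := by
  have hB := psTerm_nonneg B s p
  have hB' := psTerm_nonneg B' s p
  unfold psTerm at *
  by_cases h1 : (p : ℕ) ∈ B
  · have h2 : (p : ℕ) ∈ B ∪ B' := Or.inl h1
    rw [Set.indicator_of_mem h2, Set.indicator_of_mem h1]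
    linarith
  · by_cases h2 : (p : ℕ) ∈ B'
    · have h3 : (p : ℕ) ∈ B ∪ B' := Or.inr h2
      rw [Set.indicator_of_mem h3, Set.indicator_of_mem h2]
      linarith
    · have h3 : (p : ℕ) ∉ B ∪ B' := fun h => h.elim h1 h2
      rw [Set.indicator_of_notMem h3]
      linarith

theorem primeSum_union_le (B B' : Set ℕ) {s : ℝ} (hs : 1 < s) :
    primeSum (B ∪ B') s ≤ primeSum B s + primeSum B' s := by
  unfold primeSum
  rw [← (summable_indicator B hs).tsum_add (summable_indicator B' hs)]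
  exact (summable_indicator (B ∪ B') hs).tsum_le_tsum (psTerm_union_le B B' s)
    ((summable_indicator B hs).add (summable_indicator B' hs))

theorem primeSum_union_of_disjoint {B B' : Set ℕ} (hd : Disjoint B B') {s : ℝ} (hs : 1 < s) :
    primeSum (B ∪ B') s = primeSum B s + primeSum B' s := by
  unfold primeSum
  rw [← (summable_indicator B hs).tsum_add (summable_indicator B' hs)]
  refine tsum_congr fun p => ?_
  rw [Set.indicator_union_of_disjoint hd]

/-- a finite set contributes at most its cardinality -/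
theorem primeSum_le_card (F : Finset ℕ) {s : ℝ} (hs : 0 ≤ s) :
    primeSum (F : Set ℕ) s ≤ F.card := by
  refine Real.tsum_le_of_sum_le (fun p => psTerm_nonneg _ s p) fun u => ?_
  have h1 : ∀ p ∈ u, psTerm (F : Set ℕ) s p ≤ if (p : ℕ) ∈ F then 1 else 0 := by
    intro p _
    by_cases hp : (p : ℕ) ∈ F
    · rw [if_pos hp]
      have hp' : (p : ℕ) ∈ (F : Set ℕ) := hp
      unfold psTerm
      rw [Set.indicator_of_mem hp']
      have h1 : (1 : ℝ) ≤ ((p : ℕ) : ℝ) := by exact_mod_cast p.2.one_lt.le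
      exact Real.rpow_le_one_of_one_le_of_nonpos h1 (by linarith)
    · rw [if_neg hp]
      have hp' : (p : ℕ) ∉ (F : Set ℕ) := hp
      unfold psTerm
      rw [Set.indicator_of_notMem hp']
  refine le_trans (Finset.sum_le_sum h1) ?_
  rw [Finset.sum_ite, Finset.sum_const_zero, add_zero, Finset.sum_const, nsmul_eq_mul, mul_one]
  have h2 : (u.filter fun p : Nat.Primes => (p : ℕ) ∈ F).card ≤ F.card := by
    refine Finset.card_le_card_of_injOn (fun p : Nat.Primes => (p : ℕ)) (fun p hp => ?_)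
      (fun p _ q _ hpq => Subtype.val_injective hpq)
    exact (Finset.mem_filter.1 hp).2
  exact_mod_cast h2

/-! ### `log (1/(s-1))` -/

theorem log_inv_sub_one_pos {s : ℝ} (hs : 1 < s) (hs2 : s < 2) : 0 < Real.log (1 / (s - 1)) := by
  apply Real.log_pos
  rw [lt_div_iff₀ (by linarith)]
  linarith

/-- `log (1/(s-1)) ≥ M` for `s` close to `1` -/
theorem exists_delta_log_ge (M : ℝ) : ∃ δ : ℝ, 0 < δ ∧ δ ≤ 1 ∧ ∀ s : ℝ, 1 < s → s < 1 + δ →
    M ≤ Real.log (1 / (s - 1)) := by
  refine ⟨Real.exp (-|M|), Real.exp_pos _, ?_, fun s hs hsd => ?_⟩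
  · rw [Real.exp_le_one_iff]
    linarith [abs_nonneg M]
  · have hs1 : 0 < s - 1 := by linarith
    have h1 : s - 1 < Real.exp (-|M|) := by linarith
    have h2 : Real.log (s - 1) < -|M| := by
      rw [Real.log_lt_iff_lt_exp hs1]
      exact h1
    rw [one_div, Real.log_inv]
    linarith [le_abs_self M]

/-! ### monotonicity and unions -/

theorem _root_.Fermat.Agent.S48lib.UpperDensityLE.mono_set {B B' : Set ℕ} {η : ℝ}
    (h : UpperDensityLE B' η) (hB : B ⊆ B') : UpperDensityLE B η := by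
  intro η' hη'
  obtain ⟨δ, hδ, hs⟩ := h η' hη'
  exact ⟨δ, hδ, fun s hs1 hs2 => le_trans (primeSum_mono hB hs1) (hs s hs1 hs2)⟩

theorem _root_.Fermat.Agent.S48lib.UpperDensityLE.mono {B : Set ℕ} {η η₁ : ℝ}
    (h : UpperDensityLE B η) (hη : η ≤ η₁) : UpperDensityLE B η₁ :=
  fun η' hη' => h η' (lt_of_le_of_lt hη hη')

theorem _root_.Fermat.Agent.S48lib.LowerDensityGE.mono_set {B B' : Set ℕ} {c : ℝ}
    (h : LowerDensityGE B c) (hB : B ⊆ B') : LowerDensityGE B' c := by
  intro c' hc'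
  obtain ⟨δ, hδ, hs⟩ := h c' hc'
  exact ⟨δ, hδ, fun s hs1 hs2 => le_trans (hs s hs1 hs2) (primeSum_mono hB hs1)⟩

theorem _root_.Fermat.Agent.S48lib.LowerDensityGE.mono {B : Set ℕ} {c c₁ : ℝ}
    (h : LowerDensityGE B c) (hc : c₁ ≤ c) : LowerDensityGE B c₁ :=
  fun c' hc' => h c' (lt_of_lt_of_le hc' hc)

theorem _root_.Fermat.Agent.S48lib.UpperDensityLE.union {B B' : Set ℕ} {η η₁ : ℝ}
    (h : UpperDensityLE B η) (h' : UpperDensityLE B' η₁) : UpperDensityLE (B ∪ B') (η + η₁) := by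
  intro η' hη'
  set t : ℝ := (η' - (η + η₁)) / 2 with ht
  have ht0 : 0 < t := by rw [ht]; linarith
  obtain ⟨δ, hδ, hs⟩ := h (η + t) (by linarith)
  obtain ⟨δ', hδ', hs'⟩ := h' (η₁ + t) (by linarith)
  refine ⟨min δ δ', lt_min hδ hδ', fun s hs1 hs2 => ?_⟩
  have h1 := hs s hs1 (lt_of_lt_of_le hs2 (by gcongr; exact min_le_left _ _))
  have h2 := hs' s hs1 (lt_of_lt_of_le hs2 (by gcongr; exact min_le_right _ _))
  have h3 := primeSum_union_le B B' hs1
  have h4 : η' = (η + t) + (η₁ + t) := by rw [ht]; ring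
  rw [h4, add_mul]
  linarith

theorem upperDensityLE_of_finite {B : Set ℕ} (hB : B.Finite) : UpperDensityLE B 0 := by
  intro η' hη'
  obtain ⟨δ, hδ, hδ1, hs⟩ := exists_delta_log_ge ((hB.toFinset.card : ℝ) / η')
  refine ⟨δ, hδ, fun s hs1 hs2 => ?_⟩
  have h1 := hs s hs1 hs2
  have h2 := primeSum_le_card hB.toFinset (s := s) (by linarith)
  rw [Set.Finite.coe_toFinset] at h2
  rw [div_le_iff₀ hη'] at h1
  linarith

/-- a set of lower density `≥ c` is not contained in a set of upper density `≤ η < c`. -/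
theorem not_subset_of_density {B B' : Set ℕ} {c η : ℝ} (hB : LowerDensityGE B c)
    (hB' : UpperDensityLE B' η) (h : η < c) : ¬ B ⊆ B' := by
  intro hsub
  set t : ℝ := (c - η) / 3 with ht
  have ht0 : 0 < t := by rw [ht]; linarith
  obtain ⟨δ, hδ, hs⟩ := hB (c - t) (by linarith)
  obtain ⟨δ', hδ', hs'⟩ := hB' (η + t) (by linarith)
  set s : ℝ := 1 + min (min δ δ') 1 / 2 with hsdef
  have hm : 0 < min (min δ δ') 1 := lt_min (lt_min hδ hδ') one_pos
  have hs1 : 1 < s := by rw [hsdef]; linarith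
  have hsδ : s < 1 + δ := by
    have : min (min δ δ') 1 ≤ δ := le_trans (min_le_left _ _) (min_le_left _ _)
    rw [hsdef]; linarith
  have hsδ' : s < 1 + δ' := by
    have : min (min δ δ') 1 ≤ δ' := le_trans (min_le_left _ _) (min_le_right _ _)
    rw [hsdef]; linarith
  have hs2 : s < 2 := by
    have : min (min δ δ') 1 ≤ 1 := min_le_right _ _
    rw [hsdef]; linarith
  have hL := log_inv_sub_one_pos hs1 hs2
  have h1 := hs s hs1 hsδ
  have h2 := hs' s hs1 hsδ'
  have h3 := primeSum_mono hsub hs1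
  have h4 : (c - t) * Real.log (1 / (s - 1)) ≤ (η + t) * Real.log (1 / (s - 1)) := by linarith
  have h5 : c - t ≤ η + t := le_of_mul_le_mul_right h4 hL
  rw [ht] at h5
  linarith

end Fermat.Agent.S48lib.Dens
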