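/-
S48lib / Dens / CharSum  (helper4).

For a finite group `G`, a homomorphism `r : G →* GL₂(ℂ)` with a stable line has
`∑_g ‖tr r(g)‖² ≥ 2 |G|`   (`sum_norm_trace_sq_ge`):
`tr r(g) = c(g) + d(g)/c(g)` with `c, d : G →* ℂ` of absolute value one, so
`‖tr r(g)‖² = 2 + 2 Re ψ(g)`, `ψ = d / c²`, and `∑_g ψ(g) ∈ {0, |G|}`.
-/
import Mathlib

set_option autoImplicit false

noncomputable section

namespace Fermat.Agent.S48lib.Dens

open Matrix

/-- values of a monoid homomorphism from a finite group to `ℂ` have absolute value one -/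
theorem norm_hom_eq_one {G : Type} [Group G] [Fintype G] (f : G →* ℂ) (g : G) : ‖f g‖ = 1 := by
  have h1 : f g ^ Fintype.card G = 1 := by
    rw [← map_pow, pow_card_eq_one, map_one]
  have h2 : ‖f g‖ ^ Fintype.card G = 1 := by
    rw [← norm_pow, h1, norm_one]
  exact (pow_eq_one_iff_of_nonneg (norm_nonneg _) Fintype.card_ne_zero).1 h2

/-- an eigenvalue `c` of a `2 × 2` matrix satisfies `c² - tr · c + det = 0` -/
theorem eigenvalue_quadratic (M : Matrix (Fin 2) (Fin 2) ℂ) {v : Fin 2 → ℂ} (hv : v ≠ 0) {c : ℂ}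
    (h : M.mulVec v = c • v) : c ^ 2 - M.trace * c + M.det = 0 := by
  have h0 : (M - c • (1 : Matrix (Fin 2) (Fin 2) ℂ)).mulVec v = 0 := by
    rw [Matrix.sub_mulVec, h, Matrix.smul_mulVec, Matrix.one_mulVec, sub_self]
  have hdet : (M - c • (1 : Matrix (Fin 2) (Fin 2) ℂ)).det = 0 :=
    Matrix.exists_mulVec_eq_zero_iff.1 ⟨v, hv, h0⟩
  rw [Matrix.det_fin_two] at hdet
  simp only [Matrix.sub_apply, Matrix.smul_apply, Matrix.one_apply_eq, smul_eq_mul, mul_one,
    Matrix.one_apply_ne (show (0 : Fin 2) ≠ 1 by decide),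
    Matrix.one_apply_ne (show (1 : Fin 2) ≠ 0 by decide), mul_zero, sub_zero] at hdet
  rw [Matrix.trace_fin_two, Matrix.det_fin_two]
  linear_combination hdet

/-- `‖c (1 + ψ)‖² = 2 + 2 Re ψ` for `‖c‖ = ‖ψ‖ = 1` -/
theorem norm_sq_mul_one_add {c ψ : ℂ} (hc : ‖c‖ = 1) (hψ : ‖ψ‖ = 1) :
    ‖c * (1 + ψ)‖ ^ 2 = 2 + 2 * ψ.re := by
  rw [norm_mul, hc, one_mul, Complex.sq_norm, Complex.normSq_apply]
  have h1 : ψ.re * ψ.re + ψ.im * ψ.im = 1 := by
    rw [← Complex.normSq_apply, ← Complex.sq_norm, hψ, one_pow]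
  simp only [Complex.add_re, Complex.one_re, Complex.add_im, Complex.one_im, zero_add]
  nlinarith

theorem trace_eq_of_quadratic {c t d : ℂ} (hc : c ≠ 0) (hq : c ^ 2 - t * c + d = 0) :
    t = c * (1 + d / c ^ 2) := by
  have h1 : t * c = c ^ 2 + d := by linear_combination (-1 : ℂ) * hq
  have h2 : c * (1 + d / c ^ 2) * c = c ^ 2 + d := by
    field_simp
  exact mul_right_cancel₀ hc (h1.trans h2.symm)

theorem sum_norm_trace_sq_ge {G : Type} [Group G] [Fintype G] (r : G →* GL (Fin 2) ℂ)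
    {v : Fin 2 → ℂ} (hv : v ≠ 0)
    (hst : ∀ g : G, ∃ c : ℂ, ((r g : GL (Fin 2) ℂ) : Matrix (Fin 2) (Fin 2) ℂ).mulVec v = c • v) :
    2 * (Fintype.card G : ℝ) ≤
      ∑ g : G, ‖((r g : GL (Fin 2) ℂ) : Matrix (Fin 2) (Fin 2) ℂ).trace‖ ^ 2 := by
  classical
  -- a nonzero coordinate
  obtain ⟨i, hi⟩ : ∃ i, v i ≠ 0 := by
    by_contra hcon
    exact hv (funext fun i => by_contra fun hi => hcon ⟨i, hi⟩)
  set M : G → Matrix (Fin 2) (Fin 2) ℂ := fun g => ((r g : GL (Fin 2) ℂ) : Matrix (Fin 2) (Fin 2) ℂ)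
    with hM
  have hM1 : M 1 = 1 := by simp [hM]
  have hMmul : ∀ g h, M (g * h) = M g * M h := by
    intro g h
    simp [hM]
  -- the eigenvalue
  set c : G → ℂ := fun g => (M g).mulVec v i / v i with hc
  have hcv : ∀ g, (M g).mulVec v = c g • v := by
    intro g
    obtain ⟨c', hc'⟩ := hst g
    have h1 : c g = c' := by
      simp only [hc]
      rw [show (M g).mulVec v = c' • v from hc', Pi.smul_apply, smul_eq_mul, mul_div_assoc,
        div_self hi, mul_one]
    rw [h1]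
    exact hc'
  have hc1 : c 1 = 1 := by
    simp only [hc, hM1, Matrix.one_mulVec]
    exact div_self hi
  have hcmul : ∀ g h, c (g * h) = c g * c h := by
    intro g h
    have h1 : (M (g * h)).mulVec v = (c g * c h) • v := by
      rw [hMmul, ← Matrix.mulVec_mulVec, hcv h, Matrix.mulVec_smul, hcv g, smul_smul, mul_comm]
    simp only [hc]
    change (M (g * h)).mulVec v i / v i = _
    rw [h1, Pi.smul_apply, smul_eq_mul, mul_div_assoc, div_self hi, mul_one]
  let cHom : G →* ℂ := { toFun := c, map_one' := hc1, map_mul' := hcmul }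
  let dHom : G →* ℂ :=
    { toFun := fun g => (M g).det
      map_one' := by rw [hM1, Matrix.det_one]
      map_mul' := fun g h => by rw [hMmul, Matrix.det_mul] }
  let ψHom : G →* ℂ :=
    { toFun := fun g => dHom g / (cHom g) ^ 2
      map_one' := by rw [map_one, map_one]; simp
      map_mul' := fun g h => by rw [map_mul, map_mul, mul_pow, mul_div_mul_comm] }
  have hcn : ∀ g, ‖c g‖ = 1 := fun g => norm_hom_eq_one cHom g
  have hdn : ∀ g, ‖(M g).det‖ = 1 := fun g => norm_hom_eq_one dHom g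
  have hψn : ∀ g, ‖ψHom g‖ = 1 := fun g => norm_hom_eq_one ψHom g
  have hc0 : ∀ g, c g ≠ 0 := fun g h0 => by
    have := hcn g
    rw [h0, norm_zero] at this
    exact zero_ne_one this
  -- the trace
  have htr : ∀ g, (M g).trace = c g * (1 + ψHom g) := by
    intro g
    have hq := eigenvalue_quadratic (M g) hv (hcv g)
    have h1 : ψHom g = (M g).det / (c g) ^ 2 := rfl
    rw [h1]
    exact trace_eq_of_quadratic (hc0 g) hq
  have hterm : ∀ g, ‖(M g).trace‖ ^ 2 = 2 + 2 * (ψHom g).re := fun g => by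
    rw [htr g]
    exact norm_sq_mul_one_add (hcn g) (hψn g)
  have hsum : (0 : ℝ) ≤ ∑ g : G, (ψHom g).re := by
    rw [← Complex.re_sum, sum_hom_units ψHom]
    split_ifs
    · simp
    · simp
  calc 2 * (Fintype.card G : ℝ) ≤ 2 * (Fintype.card G : ℝ) + 2 * ∑ g : G, (ψHom g).re := by
        linarith
    _ = ∑ g : G, (2 + 2 * (ψHom g).re) := by
        rw [Finset.sum_add_distrib, Finset.sum_const, Finset.card_univ, nsmul_eq_mul,
          ← Finset.mul_sum]
        ring
    _ = ∑ g : G, ‖(M g).trace‖ ^ 2 := Finset.sum_congr rfl fun g _ => (hterm g).symm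

end Fermat.Agent.S48lib.Dens
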