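/-
S48lib / Dens / ChebSum  (helper4).

**Lower bounds for weighted prime sums from lower densities, against Rankin's bound.**
If finitely many sets `B i` have lower densities `≥ c i`, weights `w i ≥ 0` with
`∑ w i c i > 1`, and pointwise `∑_i w i [p ∈ B i] ≤ [p ∤ M] ‖b p‖²`, then `b` does not satisfy
`RankinBound M b`   (`not_rankinBound_of_lower`).
-/
import Mathlib
import Fermat.Agent.S48lib.Dens.Basic

set_option autoImplicit false

noncomputable section

namespace Fermat.Agent.S48lib.Dens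

/-- the shape of Rankin's bound for a coefficient function `b` away from the level `M` -/
def RankinBound (M : ℕ) (b : ℕ → ℂ) : Prop :=
  ∃ C : ℝ, ∀ s : ℝ, 1 < s → s ≤ 2 →
    Summable (fun p : Nat.Primes => if (p : ℕ) ∣ M then 0 else
      ‖b p‖ ^ 2 * ((p : ℕ) : ℝ) ^ (-s)) ∧
    ∑' p : Nat.Primes, (if (p : ℕ) ∣ M then 0 else ‖b p‖ ^ 2 * ((p : ℕ) : ℝ) ^ (-s))
      ≤ Real.log (1 / (s - 1)) + C

/-- a simultaneous `δ` for a finite family of lower densities -/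
theorem exists_delta_family {ι : Type} (X : Finset ι) (B : ι → Set ℕ) (c : ι → ℝ)
    (hB : ∀ i ∈ X, LowerDensityGE (B i) (c i)) {ε : ℝ} (hε : 0 < ε) :
    ∃ δ : ℝ, 0 < δ ∧ δ ≤ 1 ∧ ∀ i ∈ X, ∀ s : ℝ, 1 < s → s < 1 + δ →
      (c i - ε) * Real.log (1 / (s - 1)) ≤ primeSum (B i) s := by
  classical
  induction X using Finset.induction_on with
  | empty => exact ⟨1, one_pos, le_rfl, by simp⟩
  | insert i X hi ih =>
    obtain ⟨δ, hδ, hδ1, h⟩ := ih fun j hj => hB j (Finset.mem_insert_of_mem hj)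
    obtain ⟨δ', hδ', h'⟩ := hB i (Finset.mem_insert_self i X) (c i - ε) (by linarith)
    refine ⟨min δ δ', lt_min hδ hδ', (min_le_left _ _).trans hδ1, ?_⟩
    intro j hj s hs1 hs2
    rcases Finset.mem_insert.1 hj with rfl | hj
    · exact h' s hs1 (lt_of_lt_of_le hs2 (by gcongr; exact min_le_right _ _))
    · exact h j hj s hs1 (lt_of_lt_of_le hs2 (by gcongr; exact min_le_left _ _))

/-- weighted lower bound -/
theorem weighted_lower_bound {ι : Type} (X : Finset ι) (B : ι → Set ℕ) (c w : ι → ℝ)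
    (hw : ∀ i ∈ X, 0 ≤ w i) (hB : ∀ i ∈ X, LowerDensityGE (B i) (c i)) {ε : ℝ} (hε : 0 < ε) :
    ∃ δ : ℝ, 0 < δ ∧ δ ≤ 1 ∧ ∀ s : ℝ, 1 < s → s < 1 + δ →
      (∑ i ∈ X, w i * c i - ε) * Real.log (1 / (s - 1)) ≤ ∑ i ∈ X, w i * primeSum (B i) s := by
  have hW : 0 ≤ ∑ i ∈ X, w i := Finset.sum_nonneg hw
  set ε' : ℝ := ε / (1 + ∑ i ∈ X, w i) with hε'
  have hε'0 : 0 < ε' := by positivity
  obtain ⟨δ, hδ, hδ1, h⟩ := exists_delta_family X B c hB hε'0
  refine ⟨δ, hδ, hδ1, fun s hs1 hs2 => ?_⟩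
  have hL : 0 < Real.log (1 / (s - 1)) := log_inv_sub_one_pos hs1 (by linarith)
  set L : ℝ := Real.log (1 / (s - 1)) with hLdef
  have h1 : ∑ i ∈ X, w i * ((c i - ε') * L) ≤ ∑ i ∈ X, w i * primeSum (B i) s :=
    Finset.sum_le_sum fun i hi => mul_le_mul_of_nonneg_left (h i hi s hs1 hs2) (hw i hi)
  have h2 : ∑ i ∈ X, w i * ((c i - ε') * L) = (∑ i ∈ X, w i * c i - ε' * ∑ i ∈ X, w i) * L := by
    rw [sub_mul, Finset.sum_mul, Finset.mul_sum, Finset.sum_mul, ← Finset.sum_sub_distrib]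
    refine Finset.sum_congr rfl fun i _ => ?_
    ring
  have h3 : ε' * ∑ i ∈ X, w i ≤ ε := by
    rw [hε', div_mul_eq_mul_div, div_le_iff₀ (by linarith)]
    nlinarith
  have h4 : (∑ i ∈ X, w i * c i - ε) * L ≤ (∑ i ∈ X, w i * c i - ε' * ∑ i ∈ X, w i) * L :=
    mul_le_mul_of_nonneg_right (by linarith) hL.le
  linarith

/-- **contradiction with Rankin's bound** -/
theorem not_rankinBound_of_lower {ι : Type} (X : Finset ι) (B : ι → Set ℕ) (c w : ι → ℝ)
    (hw : ∀ i ∈ X, 0 ≤ w i) (hB : ∀ i ∈ X, LowerDensityGE (B i) (c i))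
    (hbig : 1 < ∑ i ∈ X, w i * c i) (M : ℕ) (b : ℕ → ℂ)
    (hpt : ∀ p : ℕ, p.Prime → ∑ i ∈ X, Set.indicator (B i) (fun _ => w i) p ≤
      if p ∣ M then 0 else ‖b p‖ ^ 2) :
    ¬ RankinBound M b := by
  rintro ⟨C, hC⟩
  set T : ℝ := ∑ i ∈ X, w i * c i with hT
  set ε : ℝ := (T - 1) / 2 with hε
  have hε0 : 0 < ε := by rw [hε]; linarith
  obtain ⟨δ, hδ, hδ1, hlow⟩ := weighted_lower_bound X B c w hw hB hε0
  obtain ⟨δ₂, hδ₂, hδ₂1, hlog⟩ := exists_delta_log_ge ((|C| + 1) / ε)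
  set s : ℝ := 1 + min δ δ₂ / 2 with hs
  have hm : 0 < min δ δ₂ := lt_min hδ hδ₂
  have hs1 : 1 < s := by rw [hs]; linarith
  have hsδ : s < 1 + δ := by
    have := min_le_left δ δ₂
    rw [hs]; linarith
  have hsδ₂ : s < 1 + δ₂ := by
    have := min_le_right δ δ₂
    rw [hs]; linarith
  have hs2 : s ≤ 2 := by linarith
  obtain ⟨hsum, hle⟩ := hC s hs1 hs2
  have h1 := hlow s hs1 hsδ
  have h2 := hlog s hs1 hsδ₂
  set L : ℝ := Real.log (1 / (s - 1)) with hLdef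
  set G : Nat.Primes → ℝ := fun p =>
    if (p : ℕ) ∣ M then 0 else ‖b p‖ ^ 2 * ((p : ℕ) : ℝ) ^ (-s) with hG
  -- the weighted sum is bounded by Rankin's sum
  have h3 : ∑ i ∈ X, w i * primeSum (B i) s ≤ ∑' p, G p := by
    have h4 : ∑ i ∈ X, w i * primeSum (B i) s = ∑' p : Nat.Primes, ∑ i ∈ X, w i * psTerm (B i) s p := by
      rw [Summable.tsum_finsetSum fun i _ => (summable_indicator (B i) hs1).mul_left (w i)]
      refine Finset.sum_congr rfl fun i _ => ?_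
      rw [tsum_mul_left]
      rfl
    rw [h4]
    refine Summable.tsum_le_tsum (fun p => ?_)
      (summable_sum fun i _ => (summable_indicator (B i) hs1).mul_left (w i)) hsum
    have h5 := hpt p p.2
    have hps : 0 ≤ ((p : ℕ) : ℝ) ^ (-s) := by positivity
    have h6 : ∑ i ∈ X, w i * psTerm (B i) s p =
        (∑ i ∈ X, Set.indicator (B i) (fun _ => w i) (p : ℕ)) * ((p : ℕ) : ℝ) ^ (-s) := by
      rw [Finset.sum_mul]
      refine Finset.sum_congr rfl fun i _ => ?_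
      unfold psTerm
      by_cases hp : (p : ℕ) ∈ B i
      · rw [Set.indicator_of_mem hp, Set.indicator_of_mem hp]
      · rw [Set.indicator_of_notMem hp, Set.indicator_of_notMem hp]
        ring
    rw [h6]
    have h7 : G p = (if (p : ℕ) ∣ M then 0 else ‖b p‖ ^ 2) * ((p : ℕ) : ℝ) ^ (-s) := by
      simp only [hG]
      split_ifs
      · ring
      · rfl
    rw [h7]
    exact mul_le_mul_of_nonneg_right h5 hps
  -- arithmetic
  have h8 : (T - ε) * L ≤ L + C := le_trans h1 (le_trans h3 hle)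
  have h9 : T - ε - 1 = ε := by rw [hε]; ring
  have h10 : ε * L ≤ C := by
    have : (T - ε) * L = L + ε * L := by rw [← h9]; ring
    linarith
  have h11 : |C| + 1 ≤ ε * L := by
    rw [div_le_iff₀ hε0] at h2
    linarith
  linarith [le_abs_self C]

end Fermat.Agent.S48lib.Dens
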