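/-
S48lib / Dens / IrrLine  (helper4).

A two-dimensional matrix representation without a stable line is irreducible
(`Representation.IsIrreducible (Deformation.matrixRepresentation ρ)`).
-/
import Mathlib
import Fermat.Prelude.Def_Deformations_MatrixRepresentation

set_option autoImplicit false

noncomputable section

namespace Fermat.Agent.S48lib.Dens

open Module

/-- A representation `ρ : G → GL₂(k)` with no common eigenvector is irreducible. -/
theorem isIrreducible_of_no_stable_line {G k : Type} [Group G] [Field k] (ρ : G →* GL (Fin 2) k)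
    (h : ∀ v : Fin 2 → k, v ≠ 0 →
      ¬ ∀ g : G, ∃ c : k, ((ρ g : GL (Fin 2) k) : Matrix (Fin 2) (Fin 2) k).mulVec v = c • v) :
    (Deformation.matrixRepresentation ρ).IsIrreducible := by
  refine { exists_pair_ne := ⟨⊥, ⊤, ?_⟩, eq_bot_or_eq_top := fun W => ?_ }
  · intro hbt
    have h1 : (⊥ : Subrepresentation (Deformation.matrixRepresentation ρ)).toSubmodule =
        (⊤ : Subrepresentation (Deformation.matrixRepresentation ρ)).toSubmodule := by rw [hbt]
    exact bot_ne_top (α := Submodule k (Fin 2 → k)) h1
  · by_cases hbot : W.toSubmodule = ⊥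
    · left
      exact Subrepresentation.toSubmodule_injective hbot
    by_cases htop : W.toSubmodule = ⊤
    · right
      exact Subrepresentation.toSubmodule_injective htop
    exfalso
    have hle : finrank k W.toSubmodule ≤ 2 := by
      have := Submodule.finrank_le W.toSubmodule
      simpa using this
    have hne0 : finrank k W.toSubmodule ≠ 0 := fun h0 => hbot (Submodule.finrank_eq_zero.1 h0)
    have hne2 : finrank k W.toSubmodule ≠ 2 := fun h2 =>
      htop (Submodule.eq_top_of_finrank_eq (by simpa using h2))
    have h1 : finrank k W.toSubmodule = 1 := by omega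
    obtain ⟨v, hv0, hv⟩ := finrank_eq_one_iff'.1 h1
    refine h (v : Fin 2 → k) (fun h0 => hv0 (Subtype.ext h0)) fun g => ?_
    have hmem : Deformation.matrixRepresentation ρ g (v : Fin 2 → k) ∈ W.toSubmodule :=
      W.apply_mem_toSubmodule g v.2
    obtain ⟨c, hc⟩ := hv ⟨_, hmem⟩
    refine ⟨c, ?_⟩
    have h2 := congrArg Subtype.val hc
    simp only [Submodule.coe_smul, Deformation.matrixRepresentation_apply,
      Matrix.mulVecLin_apply] at h2
    exact h2.symm

end Fermat.Agent.S48lib.Dens
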