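/-
S48lib / Dens / Irred  (helper4).

**The irreducibility step of Deligne–Serre**: a representation `ρ : G_ℚ → GL₂(ℂ)` of finite level,
unramified outside `N`, whose Frobenius traces `a p` (`p ∤ N`) satisfy Rankin's bound
`∑_{p ∤ N} ‖a p‖² p^{-s} ≤ log (1/(s-1)) + C`, is irreducible   (`isIrreducible_of_rankinBound`).

Proof: otherwise there is a stable line, so `∑_{g ∈ G} ‖tr g‖² ≥ 2 |G|` on the finite image `G`
(`CharSum`); Chebotarev's theorem (lower density form, `DS.ChebotarevStmt`) on the level sets of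
`‖tr‖²` gives `∑_{p ∤ N} ‖a p‖² p^{-s} ≥ (2 - ε) log (1/(s-1))` near `s = 1` (`ChebSum`).
-/
import Mathlib
import Fermat.Agent.S48lib.DS.Inputs
import Fermat.Agent.S48lib.Dens.IrrLine
import Fermat.Agent.S48lib.Dens.CharSum
import Fermat.Agent.S48lib.Dens.ChebSum
import Fermat.Agent.Helper5.FrobExists

set_option autoImplicit false

noncomputable section

namespace Fermat.Agent.S48lib.Dens

open DS

/-- a homomorphism of finite level has finite image -/
theorem finite_range_of_finiteLevel {M : Type} [Group M] (ρ : GQ →* M)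
    (h : GaloisFactorsThroughFiniteLevel ρ) : Finite ρ.range := by
  classical
  obtain ⟨L, hL, hker⟩ := h
  have := hL
  let res : GQ → (L →ₐ[ℚ] AlgebraicClosure ℚ) := fun σ =>
    (σ : AlgebraicClosure ℚ →ₐ[ℚ] AlgebraicClosure ℚ).comp L.val
  have hres : ∀ σ τ : GQ, res σ = res τ → ρ σ = ρ τ := by
    intro σ τ hστ
    have h1 : ρ (σ⁻¹ * τ) = 1 := hker _ fun x hx => by
      have h2 : σ x = τ x := DFunLike.congr_fun hστ ⟨x, hx⟩
      rw [AlgEquiv.mul_apply, ← h2]
      exact σ.symm_apply_apply x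
    rw [map_mul, map_inv, inv_mul_eq_one] at h1
    exact h1
  let sec : (L →ₐ[ℚ] AlgebraicClosure ℚ) → M := fun r =>
    if h : ∃ σ, res σ = r then ρ h.choose else 1
  have hsub : (ρ.range : Set M) ⊆ Set.range sec := by
    rintro _ ⟨σ, rfl⟩
    refine ⟨res σ, ?_⟩
    have hex : ∃ τ, res τ = res σ := ⟨σ, rfl⟩
    simp only [sec, dif_pos hex]
    exact hres _ _ hex.choose_spec
  exact ((Set.finite_range sec).subset hsub).to_subtype

/-- **irreducibility from Rankin's bound and Chebotarev's density theorem** -/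
theorem isIrreducible_of_rankinBound (hCheb : DS.ChebotarevStmt) {N : ℕ} (hN : N ≠ 0)
    {a : ℕ → ℂ} (hRk : RankinBound N a) (ρ : GQ →* GL (Fin 2) ℂ)
    (hfin : GaloisFactorsThroughFiniteLevel ρ)
    (hρ : ∀ p : ℕ, p.Prime → ¬ p ∣ N →
      ∀ A : ValuationSubring (AlgebraicClosure ℚ), A.LiesOverPrime p →
        (∀ σ ∈ A.inertiaSubgroupIn ℚ, ρ σ = 1) ∧
        ∀ σ : GQ, A.IsFrobeniusAt σ p →
          ((ρ σ : GL (Fin 2) ℂ) : Matrix (Fin 2) (Fin 2) ℂ).trace = a p) :
    (Deformation.matrixRepresentation ρ).IsIrreducible := by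
  classical
  refine isIrreducible_of_no_stable_line ρ fun v hv hst => ?_
  have : Finite ρ.range := finite_range_of_finiteLevel ρ hfin
  let _ : Fintype ρ.range := Fintype.ofFinite _
  set φ : GQ →* ρ.range := ρ.rangeRestrict with hφ
  have hφval : ∀ σ : GQ, ((φ σ : ρ.range) : GL (Fin 2) ℂ) = ρ σ := fun σ => rfl
  have hφsurj : Function.Surjective φ := ρ.rangeRestrict_surjective
  have hφfin : GaloisFactorsThroughFiniteLevel φ := by
    obtain ⟨L, hL, hker⟩ := hfin
    exact ⟨L, hL, fun σ hσ => Subtype.ext (hker σ hσ)⟩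
  set S : Finset ℕ := N.primeFactors with hSdef
  have hS : ∀ p : ℕ, p.Prime → (p ∉ S ↔ ¬ p ∣ N) := by
    intro p hp
    rw [hSdef, Nat.mem_primeFactors]
    constructor
    · intro h hd
      exact h ⟨hp, hd, hN⟩
    · intro h hd
      exact h hd.2.1
  have hunr : ∀ p : ℕ, p.Prime → p ∉ S → UnramAt φ p := by
    intro p hp hpS A hA σ hσ
    exact Subtype.ext ((hρ p hp ((hS p hp).1 hpS) A hA).1 σ hσ)
  -- the class function `‖tr‖²`
  set t : ρ.range → ℝ := fun g =>
    ‖(((g : ρ.range) : GL (Fin 2) ℂ) : Matrix (Fin 2) (Fin 2) ℂ).trace‖ ^ 2 with ht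
  have htconj : ∀ g h : ρ.range, t (g * h * g⁻¹) = t h := by
    intro g h
    simp only [ht, Subgroup.coe_mul, Subgroup.coe_inv, Units.val_mul]
    rw [Matrix.trace_units_conj]
  set X : Finset ℝ := Finset.univ.image t with hX
  set Cx : ℝ → Set ρ.range := fun x => {g | t g = x} with hCx
  have hCheb' : ∀ x ∈ X, LowerDensityGE (frobSet φ S (Cx x))
      ((Nat.card (Cx x) : ℝ) / (Nat.card ρ.range : ℝ)) := fun x _ =>
    hCheb ρ.range φ hφfin hφsurj S hunr (Cx x) fun g h hh => by
      simp only [hCx, Set.mem_ofPred_eq] at hh ⊢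
      rw [htconj, hh]
  have htnn : ∀ g, 0 ≤ t g := fun g => by simp only [ht]; positivity
  refine not_rankinBound_of_lower X (fun x => frobSet φ S (Cx x))
    (fun x => (Nat.card (Cx x) : ℝ) / (Nat.card ρ.range : ℝ)) (fun x => x) ?_ hCheb' ?_ N a ?_ hRk
  · intro x hx
    obtain ⟨g, _, rfl⟩ := Finset.mem_image.1 hx
    exact htnn g
  · -- `∑ x · #C_x / #G = (∑_g t g) / #G ≥ 2`
    have hst' : ∀ g : ρ.range, ∃ c : ℂ,
        ((ρ.range.subtype g : GL (Fin 2) ℂ) : Matrix (Fin 2) (Fin 2) ℂ).mulVec v = c • v := by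
      intro g
      obtain ⟨σ, hσ⟩ := g.2
      obtain ⟨c, hc⟩ := hst σ
      refine ⟨c, ?_⟩
      rw [Subgroup.coe_subtype, ← hσ]
      exact hc
    have h2 := sum_norm_trace_sq_ge ρ.range.subtype hv hst'
    have hcard : (0 : ℝ) < Fintype.card ρ.range := by exact_mod_cast Fintype.card_pos
    have hNc : (Nat.card ρ.range : ℝ) = Fintype.card ρ.range := by rw [Nat.card_eq_fintype_card]
    have hCc : ∀ x, (Nat.card (Cx x) : ℝ) =
        ((Finset.univ.filter fun g : ρ.range => t g = x).card : ℝ) := by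
      intro x
      rw [Nat.card_eq_fintype_card, Fintype.card_subtype]
      simp only [hCx, Set.mem_ofPred_eq]
    have hsum : ∑ g : ρ.range, t g =
        ∑ x ∈ X, ((Finset.univ.filter fun g : ρ.range => t g = x).card : ℝ) * x := by
      have := Finset.sum_comp (s := (Finset.univ : Finset ρ.range)) (fun x : ℝ => x) t
      rw [this]
      refine Finset.sum_congr rfl fun x _ => ?_
      rw [nsmul_eq_mul]
    have h3 : ∑ x ∈ X, x * ((Nat.card (Cx x) : ℝ) / (Nat.card ρ.range : ℝ)) =
        (∑ g : ρ.range, t g) / (Fintype.card ρ.range : ℝ) := by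
      rw [hsum, Finset.sum_div]
      refine Finset.sum_congr rfl fun x _ => ?_
      rw [hCc, hNc]
      ring
    rw [h3, lt_div_iff₀ hcard]
    have h4 : ∑ g : ρ.range, t g =
        ∑ g : ρ.range, ‖((ρ.range.subtype g : GL (Fin 2) ℂ) :
          Matrix (Fin 2) (Fin 2) ℂ).trace‖ ^ 2 := rfl
    rw [h4]
    linarith
  · -- pointwise comparison
    intro p hp
    by_cases hpN : p ∣ N
    · rw [if_pos hpN]
      refine le_of_eq (Finset.sum_eq_zero fun x _ => ?_)
      refine Set.indicator_of_notMem (fun hmem => ?_) _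
      have hpS : p ∈ S := by
        rw [hSdef, Nat.mem_primeFactors]
        exact ⟨hp, hpN, hN⟩
      exact hmem.2.1 hpS
    · rw [if_neg hpN]
      obtain ⟨A, σ, hA, hσ⟩ := Fermat.Agent.Helper5.exists_isFrobeniusAt p hp
      have ha0 : ‖a p‖ ^ 2 = t (φ σ) := by
        rw [← (hρ p hp hpN A hA).2 σ hσ]
        rfl
      set x₀ : ℝ := t (φ σ) with hx₀
      have ha : ‖a p‖ ^ 2 = x₀ := ha0
      have hx₀X : x₀ ∈ X := Finset.mem_image.2 ⟨φ σ, Finset.mem_univ _, rfl⟩
      have hterm : ∀ x ∈ X, Set.indicator (frobSet φ S (Cx x)) (fun _ => x) p ≤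
          if x = x₀ then x₀ else 0 := by
        intro x _
        by_cases hmem : p ∈ frobSet φ S (Cx x)
        · rw [Set.indicator_of_mem hmem]
          have h1 : φ σ ∈ Cx x := hmem.2.2 A hA σ hσ
          have h2 : x = x₀ := by
            simp only [hCx, Set.mem_ofPred_eq] at h1
            rw [hx₀, h1]
          rw [if_pos h2, h2]
        · rw [Set.indicator_of_notMem hmem]
          split_ifs
          · exact htnn _
          · exact le_rfl
      refine le_trans (Finset.sum_le_sum hterm) ?_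
      rw [Finset.sum_ite_eq' X x₀, if_pos hx₀X, ha]

end Fermat.Agent.S48lib.Dens
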