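/-
S48lib / Dens / Main  (helper4).

**`DS.DensStmt N P` for every algebraic package `P`** (block U2 of the S48 plan), from `DS.RankinStmt`
applied to all the conjugate forms of the package (which may live at levels `N' σ` multiple of `N`,
`DS/Inputs` v3):

for `η > 0`, with `D = #(K →+* ℂ)` and `c = (D+1)/η`, the finite set
`Y = {x ∈ 𝓞 K | ∀ σ, ‖σ x‖ ≤ c + 1}` (Northcott) works: for `p ∤ ∏ N' σ` with `α p ∉ Y` some
conjugate has `‖σ (α p)‖² > c`, hence (Markov, `upperDensityLE_of_rankin_family`)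
`c · ∑_{p ∈ B} p^{-s} ≤ ∑_σ ∑_{p ∤ N' σ} ‖σ (α p)‖² p^{-s} ≤ D log (1/(s-1)) + C`;
the finitely many primes dividing some `N' σ` have density zero.
-/
import Mathlib
import Fermat.Agent.S48lib.DS.Inputs
import Fermat.Agent.S48lib.Dens.Basic
import Fermat.Agent.S48lib.Dens.ChebSum

set_option autoImplicit false

noncomputable section

namespace Fermat.Agent.S48lib.Dens

open CongruenceSubgroup NumberField

/-- Northcott in `𝓞 K`: finitely many integers with all conjugates bounded. -/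
theorem finite_bounded (K : Type) [Field K] [NumberField K] (B : ℝ) :
    {x : 𝓞 K | ∀ σ : K →+* ℂ, ‖σ (x : K)‖ ≤ B}.Finite := by
  have h := NumberField.Embeddings.finite_of_norm_le K ℂ B
  refine Set.Finite.of_finite_image (f := fun x : 𝓞 K => (x : K)) (h.subset ?_)
    (NumberField.RingOfIntegers.coe_injective.injOn)
  rintro _ ⟨x, hx, rfl⟩
  exact ⟨x.isIntegral_coe, hx⟩

/-- **Markov inequality for Dirichlet densities**: if finitely many coefficient functions `b σ`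
satisfy Rankin's bound away from `M σ`, and every `p ∈ B` prime to all the `M σ` has
`‖b σ p‖² ≥ c` for some `σ`, then `B` has upper density `≤ #ι / c`. (core, primes dividing no
`M σ`) -/
theorem upperDensityLE_of_rankin_family_aux {ι : Type} [Fintype ι] (B : Set ℕ) {c : ℝ}
    (hc0 : 0 < c) (M : ι → ℕ) (b : ι → ℕ → ℂ) (hRk : ∀ σ, RankinBound (M σ) (b σ))
    (hB : ∀ p ∈ B, (∀ σ, ¬ p ∣ M σ) ∧ ∃ σ, c ≤ ‖b σ p‖ ^ 2) :
    UpperDensityLE B ((Fintype.card ι : ℝ) / c) := by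
  classical
  choose C hC using hRk
  set D : ℝ := (Fintype.card ι : ℝ) with hD
  have hD0 : 0 ≤ D := Nat.cast_nonneg _
  set Ctot : ℝ := ∑ σ : ι, C σ with hCtot
  intro η' hη'
  have hηη : 0 < η' - D / c := by linarith
  obtain ⟨δ, hδ, hδ1, hlog⟩ := exists_delta_log_ge (|Ctot| / c / (η' - D / c))
  refine ⟨δ, hδ, fun s hs1 hs2 => ?_⟩
  have hs2' : s ≤ 2 := by linarith
  have hL := hlog s hs1 hs2
  set L : ℝ := Real.log (1 / (s - 1)) with hLdef
  set G : ι → Nat.Primes → ℝ := fun σ p =>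
    if (p : ℕ) ∣ M σ then 0 else ‖b σ p‖ ^ 2 * ((p : ℕ) : ℝ) ^ (-s) with hG
  have hGsum : ∀ σ, Summable (G σ) := fun σ => (hC σ s hs1 hs2').1
  have hGle : ∀ σ, ∑' p, G σ p ≤ L + C σ := fun σ => (hC σ s hs1 hs2').2
  have hGnn : ∀ σ p, 0 ≤ G σ p := by
    intro σ p
    simp only [hG]
    split_ifs
    · exact le_rfl
    · positivity
  -- pointwise Markov inequality
  have hpt : ∀ p : Nat.Primes, psTerm B s p ≤ (1 / c) * ∑ σ, G σ p := by
    intro p
    have hsumnn : 0 ≤ ∑ σ, G σ p := Finset.sum_nonneg fun σ _ => hGnn σ p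
    by_cases hp : (p : ℕ) ∈ B
    · unfold psTerm
      rw [Set.indicator_of_mem hp]
      obtain ⟨hpM, σ₀, hσ₀⟩ := hB p hp
      have h1 : G σ₀ p ≤ ∑ σ, G σ p :=
        Finset.single_le_sum (fun σ _ => hGnn σ p) (Finset.mem_univ σ₀)
      have h2 : G σ₀ p = ‖b σ₀ p‖ ^ 2 * ((p : ℕ) : ℝ) ^ (-s) := by
        simp only [hG]
        rw [if_neg (hpM σ₀)]
      have hps : 0 ≤ ((p : ℕ) : ℝ) ^ (-s) := by positivity
      rw [one_div, ← div_eq_inv_mul, le_div_iff₀ hc0]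
      calc ((p : ℕ) : ℝ) ^ (-s) * c = c * ((p : ℕ) : ℝ) ^ (-s) := mul_comm _ _
        _ ≤ ‖b σ₀ p‖ ^ 2 * ((p : ℕ) : ℝ) ^ (-s) := mul_le_mul_of_nonneg_right hσ₀ hps
        _ = G σ₀ p := h2.symm
        _ ≤ _ := h1
    · unfold psTerm
      rw [Set.indicator_of_notMem hp]
      positivity
  have hsumRHS : Summable (fun p : Nat.Primes => (1 / c) * ∑ σ, G σ p) :=
    (summable_sum fun σ _ => hGsum σ).mul_left _
  have h1 : primeSum B s ≤ ∑' p : Nat.Primes, (1 / c) * ∑ σ, G σ p :=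
    (summable_indicator _ hs1).tsum_le_tsum hpt hsumRHS
  have h2 : ∑' p : Nat.Primes, (1 / c) * ∑ σ, G σ p = (1 / c) * ∑ σ, ∑' p, G σ p := by
    rw [tsum_mul_left, Summable.tsum_finsetSum fun σ _ => hGsum σ]
  have h3 : ∑ σ, ∑' p, G σ p ≤ D * L + Ctot := by
    calc ∑ σ, ∑' p, G σ p ≤ ∑ σ : ι, (L + C σ) :=
          Finset.sum_le_sum fun σ _ => hGle σ
      _ = D * L + Ctot := by
          rw [Finset.sum_add_distrib, Finset.sum_const, Finset.card_univ, nsmul_eq_mul]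
  have hL0 : 0 ≤ L := le_trans (by positivity) hL
  have h4 : |Ctot| / c ≤ L * (η' - D / c) := by rwa [div_le_iff₀ hηη] at hL
  have h6 : (1 / c) * (D * L + Ctot) = (D / c) * L + Ctot / c := by
    field_simp
  have h7 : Ctot / c ≤ |Ctot| / c := div_le_div_of_nonneg_right (le_abs_self _) hc0.le
  calc primeSum B s ≤ (1 / c) * (D * L + Ctot) := by
        rw [h2] at h1
        exact le_trans h1 (mul_le_mul_of_nonneg_left h3 (by positivity))
    _ = (D / c) * L + Ctot / c := h6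
    _ ≤ (D / c) * L + L * (η' - D / c) := by linarith
    _ = η' * L := by ring

/-- **Markov inequality for Dirichlet densities**, general form: only the primes `p ∈ B` dividing
no `M σ` (all `M σ ≠ 0`) need a large conjugate. -/
theorem upperDensityLE_of_rankin_family {ι : Type} [Fintype ι] (B : Set ℕ) {c : ℝ}
    (hc0 : 0 < c) (M : ι → ℕ) (hM : ∀ σ, M σ ≠ 0) (b : ι → ℕ → ℂ)
    (hRk : ∀ σ, RankinBound (M σ) (b σ))
    (hB : ∀ p ∈ B, (∀ σ, ¬ p ∣ M σ) → ∃ σ, c ≤ ‖b σ p‖ ^ 2) :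
    UpperDensityLE B ((Fintype.card ι : ℝ) / c) := by
  classical
  set F : Set ℕ := {p : ℕ | ∃ σ, p ∣ M σ} with hF
  have hFfin : F.Finite := by
    refine Set.Finite.subset
      (Finset.finite_toSet (Finset.univ.biUnion fun σ : ι => (M σ).divisors)) ?_
    rintro p ⟨σ, hσ⟩
    rw [Finset.mem_coe, Finset.mem_biUnion]
    exact ⟨σ, Finset.mem_univ σ, Nat.mem_divisors.2 ⟨hσ, hM σ⟩⟩
  have h1 : UpperDensityLE (B \ F) ((Fintype.card ι : ℝ) / c) := by
    refine upperDensityLE_of_rankin_family_aux (B \ F) hc0 M b hRk fun p hp => ?_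
    have hpF : ∀ σ, ¬ p ∣ M σ := fun σ hσ => hp.2 ⟨σ, hσ⟩
    exact ⟨hpF, hB p hp.1 hpF⟩
  have h2 := h1.union (upperDensityLE_of_finite hFfin)
  rw [add_zero] at h2
  refine h2.mono_set fun p hp => ?_
  by_cases hpF : p ∈ F
  · exact Or.inr hpF
  · exact Or.inl ⟨hp, hpF⟩

/-- **(I4) density of the exceptional primes**, from Rankin's bound for all conjugates. -/
theorem densStmt_of_rankin (hR : DS.RankinStmt) (N : ℕ)
    {ε : DirichletCharacter ℂ N} {a : ℕ → ℂ} (P : DS.AlgPackage N ε a) : DS.DensStmt N P := by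
  intro η hη
  classical
  choose N' hNe hNN' g hg1 hg2 using P.conj
  set D : ℝ := (Fintype.card (P.K →+* ℂ) : ℝ) with hD
  have hD0 : 0 ≤ D := Nat.cast_nonneg _
  set c : ℝ := (D + 1) / η with hc
  have hc0 : 0 < c := by positivity
  refine ⟨(finite_bounded P.K (c + 1)).toFinset, ?_⟩
  have h5 : D / c ≤ η := by
    rw [hc, div_div_eq_mul_div, div_le_iff₀ (by linarith)]
    nlinarith
  refine UpperDensityLE.mono ?_ h5
  refine upperDensityLE_of_rankin_family _ hc0 N' (fun σ => (hNe σ).out)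
    (fun σ n => ModularFormClass.qCoeff (g σ) n)
    (fun σ => @hR (N' σ) (hNe σ) _ (g σ) (hg1 σ)) ?_
  rintro p ⟨hpp, hpN, hpY⟩ hpM
  rw [Set.Finite.mem_toFinset, Set.mem_ofPred_eq, not_forall] at hpY
  obtain ⟨σ₀, hσ₀⟩ := hpY
  rw [not_le] at hσ₀
  refine ⟨σ₀, ?_⟩
  rw [hg2 σ₀ p hpp (hpM σ₀)]
  nlinarith [norm_nonneg (σ₀ (P.α p : P.K))]

end Fermat.Agent.S48lib.Dens
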